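import Fermat.Agent.S37.LF.Defs
import Fermat.Agent.S37.C0.Basic
import Fermat.Agent.S18.Chart.Const

/-!
# S37, block LF, node Glue: definitions and basic facts (owner helper37)

`C = Ch A y₀` is the integral closure of `A₀[y₀]` in `F_{M,K₀}` (`A₀ = A ∩ K₀`), `toB` embeds it
into `BY A M y`, `y = toB y₀`; a place `P` with `y(P) ∈ A` gives `evC : C → A`.
-/

set_option autoImplicit false
set_option linter.unusedSectionVars false

noncomputable section

namespace Fermat.Agent.S37.Glue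

open AlgebraicCurve ModularCurve Fermat.Agent.S24 Fermat.Agent.S37 IsLocalRing

/-! ### fractions of a subring of a field -/

section Frac

variable {F : Type*} [Field F]

/-- the fraction field of a subring of a field, as a subfield -/
def fracSubfield (D : Subring F) : Subfield F where
  carrier := {x | ∃ a ∈ D, ∃ b ∈ D, b ≠ 0 ∧ x * b = a}
  mul_mem' := by
    rintro x y ⟨a, ha, b, hb, hb0, h⟩ ⟨a', ha', b', hb', hb0', h'⟩
    exact ⟨a * a', D.mul_mem ha ha', b * b', D.mul_mem hb hb', mul_ne_zero hb0 hb0', by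
      rw [← h, ← h']; ring⟩
  one_mem' := ⟨1, D.one_mem, 1, D.one_mem, one_ne_zero, by ring⟩
  add_mem' := by
    rintro x y ⟨a, ha, b, hb, hb0, h⟩ ⟨a', ha', b', hb', hb0', h'⟩
    exact ⟨a * b' + a' * b, D.add_mem (D.mul_mem ha hb') (D.mul_mem ha' hb), b * b',
      D.mul_mem hb hb', mul_ne_zero hb0 hb0', by rw [← h, ← h']; ring⟩
  zero_mem' := ⟨0, D.zero_mem, 1, D.one_mem, one_ne_zero, by ring⟩
  neg_mem' := by
    rintro x ⟨a, ha, b, hb, hb0, h⟩
    exact ⟨-a, D.neg_mem ha, b, hb, hb0, by rw [← h]; ring⟩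
  inv_mem' := by
    rintro x ⟨a, ha, b, hb, hb0, h⟩
    rcases eq_or_ne x 0 with rfl | hx
    · exact ⟨0, D.zero_mem, 1, D.one_mem, one_ne_zero, by simp⟩
    · refine ⟨b, hb, a, ha, ?_, ?_⟩
      · rw [← h]; exact mul_ne_zero hx hb0
      · rw [← h]; field_simp

theorem mem_fracSubfield {D : Subring F} {x : F} :
    x ∈ fracSubfield D ↔ ∃ a ∈ D, ∃ b ∈ D, b ≠ 0 ∧ x * b = a := Iff.rfl

theorem le_fracSubfield (D : Subring F) {x : F} (hx : x ∈ D) : x ∈ fracSubfield D :=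
  ⟨x, hx, 1, D.one_mem, one_ne_zero, by ring⟩

end Frac

variable (A : ValuationSubring Kbar) {M : ℕ} [NeZero M] (K₀ : IntermediateField ℚ Kbar)

/-- `A₀ → A` -/
def incl : A0 A K₀ →+* A where
  toFun a := ⟨algebraMap K₀ Kbar a, a.2⟩
  map_one' := rfl
  map_mul' _ _ := rfl
  map_zero' := rfl
  map_add' _ _ := rfl

theorem coe_incl (a : A0 A K₀) : ((incl A K₀ a : A) : Kbar) = algebraMap K₀ Kbar a := rfl

variable {K₀}

/-- the chart over the number field -/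
abbrev Ch (y₀ : S18.FK K₀ M) : Subring (S18.FK K₀ M) := S18.chart (A0 A K₀).toSubring y₀

/-- `A₀[y₀]` -/
abbrev Po (y₀ : S18.FK K₀ M) : Subring (S18.FK K₀ M) := S18.polyRing (A0 A K₀).toSubring y₀

variable {A}

theorem toB_algebraMap (a : K₀) : toB M K₀ (algebraMap K₀ (S18.FK K₀ M) a) =
    algebraMap Kbar (FN M) (algebraMap K₀ Kbar a) :=
  S18.Descent.toBar_algebraMap _ K₀ a

theorem toB_aeval (y₀ : S18.FK K₀ M) (p : Polynomial (A0 A K₀)) :
    toB M K₀ (Polynomial.aeval y₀ (p.map (A0 A K₀).toSubring.subtype)) =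
      Polynomial.aeval (toB M K₀ y₀) ((p.map (incl A K₀)).map A.subtype) := by
  rw [S18.Descent.map_aeval_eq (toB M K₀) toB_algebraMap, Polynomial.map_map, Polynomial.map_map]
  rfl

theorem exists_of_mem_Po {y₀ r : S18.FK K₀ M} (hr : r ∈ Po A y₀) :
    ∃ p : Polynomial (A0 A K₀), r = Polynomial.aeval y₀ (p.map (A0 A K₀).toSubring.subtype) := by
  obtain ⟨p, rfl⟩ := hr
  exact ⟨p, rfl⟩

theorem toB_mem_RY {y₀ r : S18.FK K₀ M} (hr : r ∈ Po A y₀) :
    toB M K₀ r ∈ RY A M (toB M K₀ y₀) := by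
  obtain ⟨p, rfl⟩ := exists_of_mem_Po hr
  exact toB_aeval y₀ p ▸ aeval_mem_RY _

theorem toB_mem_BY {y₀ b : S18.FK K₀ M} (hb : b ∈ Ch A y₀) :
    toB M K₀ b ∈ BY A M (toB M K₀ y₀) := by
  obtain ⟨p, hp, hpe⟩ := hb
  let φ : Po A y₀ →+* RY A M (toB M K₀ y₀) :=
    ((toB M K₀).comp (Subring.subtype _)).codRestrict _ (fun r => toB_mem_RY r.2)
  refine ⟨p.map φ, hp.map φ, ?_⟩
  rw [Polynomial.eval₂_map]
  have := congrArg (toB M K₀) hpe
  rw [Polynomial.hom_eval₂, map_zero] at this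
  exact this

theorem Po_le_Ch (y₀ : S18.FK K₀ M) : Po A y₀ ≤ Ch A y₀ := S18.polyRing_le_chart _ _

theorem algebraMap_mem_Po (y₀ : S18.FK K₀ M) (a : A0 A K₀) :
    algebraMap K₀ (S18.FK K₀ M) a ∈ Po A y₀ :=
  ⟨Polynomial.C a, by simp⟩

theorem self_mem_Po (y₀ : S18.FK K₀ M) : y₀ ∈ Po A y₀ := ⟨Polynomial.X, by simp⟩

/-- evaluation at a place of the region `y(P) ∈ A` -/
def evBY {y : FN M} {P : Pl M} (hP : Reg A M y P) : BY A M y →+* A where
  toFun b := ⟨val P b.1, (mem_of_reg hP b.2).2⟩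
  map_one' := Subtype.ext val_one
  map_mul' b c := Subtype.ext (val_mul (mem_of_reg hP b.2).1 (mem_of_reg hP c.2).1)
  map_zero' := Subtype.ext val_zero
  map_add' b c := Subtype.ext (val_add (mem_of_reg hP b.2).1 (mem_of_reg hP c.2).1)

theorem coe_evBY {y : FN M} {P : Pl M} (hP : Reg A M y P) (b : BY A M y) :
    ((evBY hP b : A) : Kbar) = val P b.1 := rfl

variable (A) in
/-- `C → BY` -/
def iC (y₀ : S18.FK K₀ M) : Ch A y₀ →+* BY A M (toB M K₀ y₀) :=
  ((toB M K₀).comp (Subring.subtype _)).codRestrict _ (fun b => toB_mem_BY b.2)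

theorem coe_iC (y₀ : S18.FK K₀ M) (b : Ch A y₀) : ((iC A y₀ b : BY A M _) : FN M) = toB M K₀ b :=
  rfl

variable {y₀ : S18.FK K₀ M} {P P' : Pl M}

/-- evaluation of the chart at a place -/
def evC (hP : Reg A M (toB M K₀ y₀) P) : Ch A y₀ →+* A := (evBY hP).comp (iC A y₀)

theorem coe_evC (hP : Reg A M (toB M K₀ y₀) P) (b : Ch A y₀) :
    ((evC hP b : A) : Kbar) = val P (toB M K₀ b) := rfl

variable (A) in
/-- constants -/
def constCh (y₀ : S18.FK K₀ M) : A0 A K₀ →+* Ch A y₀ :=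
  ((algebraMap K₀ (S18.FK K₀ M)).comp (A0 A K₀).subtype).codRestrict _
    (fun a => Po_le_Ch y₀ (algebraMap_mem_Po y₀ a))

theorem coe_constCh (a : A0 A K₀) :
    ((constCh A y₀ a : Ch A y₀) : S18.FK K₀ M) = algebraMap K₀ (S18.FK K₀ M) a := rfl

theorem evC_constCh (hP : Reg A M (toB M K₀ y₀) P) (a : A0 A K₀) :
    evC hP (constCh A y₀ a) = incl A K₀ a := by
  apply Subtype.ext
  rw [coe_evC, coe_constCh, toB_algebraMap, val_algebraMap]
  rfl

/-- the centre of `P` on the chart -/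
def nId (hP : Reg A M (toB M K₀ y₀) P) : Ideal (Ch A y₀) := (maximalIdeal A).comap (evC hP)

theorem mem_nId (hP : Reg A M (toB M K₀ y₀) P) (b : Ch A y₀) :
    b ∈ nId hP ↔ evC hP b ∈ maximalIdeal A := Iff.rfl

theorem mem_nId' (hP : Reg A M (toB M K₀ y₀) P) (b : Ch A y₀) :
    b ∈ nId hP ↔ val P (toB M K₀ b) ∈ A.nonunits := by
  rw [mem_nId, ← coe_evC hP b]
  exact (ValuationSubring.mem_nonunits_iff_exists_mem_maximalIdeal.trans
    ⟨fun ⟨_, h⟩ => h, fun h => ⟨_, h⟩⟩).symm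

instance nId_isPrime (hP : Reg A M (toB M K₀ y₀) P) : (nId hP).IsPrime :=
  Ideal.comap_isPrime _ _

variable (A) in
/-- the `A`-subalgebra of `FN M` generated by the chart -/
def DD (y₀ : S18.FK K₀ M) : Subring (FN M) :=
  Subring.closure (constSet A M ∪ (fun b => toB M K₀ b) '' (Ch A y₀ : Set (S18.FK K₀ M)))

theorem const_mem_DD {a : Kbar} (ha : a ∈ A) : algebraMap Kbar (FN M) a ∈ DD A y₀ :=
  Subring.subset_closure (Or.inl ⟨a, ha, rfl⟩)

theorem toB_mem_DD {b : S18.FK K₀ M} (hb : b ∈ Ch A y₀) : toB M K₀ b ∈ DD A y₀ :=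
  Subring.subset_closure (Or.inr ⟨b, hb, rfl⟩)

theorem DD_le_BY : DD A y₀ ≤ BY A M (toB M K₀ y₀) := by
  unfold DD
  rw [Subring.closure_le]
  rintro x (⟨a, ha, rfl⟩ | ⟨b, hb, rfl⟩)
  · exact algebraMap_mem_BY ha
  · exact toB_mem_BY hb

end Fermat.Agent.S37.Glue

end
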