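import Fermat.Agent.S37.LF.Glue.Defs
import Fermat.Agent.S37.LF.Param
import Fermat.Agent.S37.LF.ChartFin
import Fermat.Agent.S18.Descent.JLine

/-!
# S37, block LF, node Glue, task G3: finitely many maximal ideals of the chart in a fibre.
Owner: helper296.
-/

set_option autoImplicit false
set_option linter.unusedSectionVars false

noncomputable section

namespace Fermat.Agent.S37.Glue

open AlgebraicCurve ModularCurve Fermat.Agent.S24 Fermat.Agent.S37 IsLocalRing

variable {A : ValuationSubring Kbar} {M : ℕ} [NeZero M] {K₀ : IntermediateField ℚ Kbar}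
  {y₀ : S18.FK K₀ M} {P P' P'' : Pl M} {ϖ₀ : K₀}

namespace Fibre

/-- a ring with constants from `A₀` and an evaluation to `A` with values in `A₀`: the centre is a
maximal ideal. -/
theorem isMaximal_comap_of_const {S : Type*} [CommRing S] (f : S →+* A) (c : A0 A K₀ →+* S)
    (hc : ∀ a, f (c a) = incl A K₀ a) (hval : ∀ b : S, ∃ a : A0 A K₀, f b = incl A K₀ a) :
    ((maximalIdeal A).comap f).IsMaximal := by
  rw [Ideal.isMaximal_iff]
  refine ⟨?_, ?_⟩
  · rw [Ideal.mem_comap, map_one]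
    exact fun h => (Ideal.ne_top_iff_one _).1 (maximalIdeal.isMaximal A).ne_top h
  · intro J x hJ hx hxJ
    obtain ⟨a, ha⟩ := hval x
    rw [Ideal.mem_comap, mem_maximalIdeal, mem_nonunits_iff, not_not, ha] at hx
    -- `a` is a unit of `A₀`
    obtain ⟨u, hu⟩ := hx
    have h1 : ((incl A K₀ a : A) : Kbar) * ((u⁻¹ : Aˣ) : A) = 1 := by
      rw [← hu]
      have : (u : A) * ((u⁻¹ : Aˣ) : A) = 1 := u.mul_inv
      exact_mod_cast congrArg Subtype.val this
    rw [coe_incl] at h1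
    have ha0 : (a : K₀) ≠ 0 := by
      intro h
      rw [h, map_zero, zero_mul] at h1
      exact zero_ne_one h1
    have h2 : algebraMap K₀ Kbar ((a : K₀)⁻¹) = (((u⁻¹ : Aˣ) : A) : Kbar) := by
      rw [map_inv₀]
      exact (eq_inv_of_mul_eq_one_right h1).symm
    have ha' : (a : K₀)⁻¹ ∈ A0 A K₀ := by
      change algebraMap K₀ Kbar ((a : K₀)⁻¹) ∈ A
      rw [h2]
      exact Subtype.property _
    have h3 : a * (⟨(a : K₀)⁻¹, ha'⟩ : A0 A K₀) = 1 := Subtype.ext (mul_inv_cancel₀ ha0)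
    have h4 : x * c ⟨(a : K₀)⁻¹, ha'⟩ - 1 ∈ (maximalIdeal A).comap f := by
      rw [Ideal.mem_comap, map_sub, map_mul, map_one, ha, hc, ← map_mul, h3, map_one, sub_self]
      exact Ideal.zero_mem _
    have h5 : (1 : S) = x * c ⟨(a : K₀)⁻¹, ha'⟩ - (x * c ⟨(a : K₀)⁻¹, ha'⟩ - 1) := by ring
    rw [h5]
    exact J.sub_mem (J.mul_mem_right _ hxJ) (hJ h4)

/-- a subring `C` of a field which is spanned over the subring `R ≤ C` by finitely many elements is
a finite `R`-module. -/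
theorem finite_of_span {F : Type*} [Field F] {R C : Subring F} (hRC : R ≤ C) (S : Finset F)
    (hS : ∀ e ∈ S, e ∈ C) (hspan : ∀ b ∈ C, b ∈ Submodule.span R (S : Set F)) :
    @Module.Finite R C _ _ (Subring.inclusion hRC).toAlgebra.toModule := by
  classical
  let _ : Algebra R C := (Subring.inclusion hRC).toAlgebra
  let ι : C →ₗ[R] F :=
    { toFun := fun c => (c : F)
      map_add' := fun _ _ => rfl
      map_smul' := fun _ _ => rfl }
  have hι : Function.Injective ι := Subtype.val_injective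
  refine ⟨⟨S.attach.image (fun e => (⟨e.1, hS e.1 e.2⟩ : C)), ?_⟩⟩
  rw [eq_top_iff]
  intro b _
  have h1 : ι b ∈ Submodule.span R (S : Set F) := hspan b b.2
  have h2 : (S : Set F) = ι '' ((S.attach.image (fun e => (⟨e.1, hS e.1 e.2⟩ : C)) : Finset C) :
      Set C) := by
    ext e
    constructor
    · intro he
      refine ⟨⟨e, hS e he⟩, ?_, rfl⟩
      rw [Finset.mem_coe, Finset.mem_image]
      exact ⟨⟨e, he⟩, Finset.mem_attach _ _, rfl⟩
    · rintro ⟨e1, he1, rfl⟩
      rw [Finset.mem_coe, Finset.mem_image] at he1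
      obtain ⟨e', -, rfl⟩ := he1
      exact e'.2
  rw [h2, ← Submodule.map_span] at h1
  obtain ⟨b', hb', hbb'⟩ := h1
  rw [← hι hbb']
  exact hb'

end Fibre

/-- G3: finitely many maximal ideals of the chart in the fibre of `P` -/
theorem finite_fibre [FiniteDimensional ℚ K₀] (h₀ : S18.IsUnif (A0 A K₀) ϖ₀)
    (hy : Transcendental K₀ y₀) (hP : Reg A M (toB M K₀ y₀) P)
    (hval : ∀ b : Ch A y₀, ∃ a : A0 A K₀, evC hP b = incl A K₀ a) :
    {𝔭 : Ideal (Ch A y₀) | 𝔭.IsMaximal ∧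
      ∀ b : Ch A y₀, (b : S18.FK K₀ M) ∈ Po A y₀ → b ∈ nId hP → b ∈ 𝔭}.Finite := by
  let _ : Algebra (Po A y₀) (Ch A y₀) := (Subring.inclusion (Po_le_Ch y₀)).toAlgebra
  obtain ⟨⟨S, hS, hspan⟩, -⟩ := ChartFin.finite_and_noeth h₀ hy (FF.IsFF1.finite y₀ hy)
  have : Module.Finite (Po A y₀) (Ch A y₀) := Fibre.finite_of_span (Po_le_Ch y₀) S hS hspan
  let c : A0 A K₀ →+* Po A y₀ :=
    ((algebraMap K₀ (S18.FK K₀ M)).comp (A0 A K₀).subtype).codRestrict _
      (fun a => algebraMap_mem_Po y₀ a)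
  have h𝔪 : ((maximalIdeal A).comap ((evC hP).comp (algebraMap (Po A y₀) (Ch A y₀)))).IsMaximal :=
    Fibre.isMaximal_comap_of_const _ c (fun a => evC_constCh hP a) (fun b => hval _)
  refine (finite_maximal_over (C := Ch A y₀) _ h𝔪).subset ?_
  rintro 𝔭 ⟨h𝔭, h⟩
  refine ⟨h𝔭, ?_⟩
  rw [Ideal.map_le_iff_le_comap]
  intro r hr
  exact h (algebraMap (Po A y₀) (Ch A y₀) r) r.2 hr

end Fermat.Agent.S37.Glue

end
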