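import Fermat.Agent.S37.LF.Glue.Defs
import Fermat.Agent.S37.LF.ChartFin
import Fermat.Agent.S18.Descent.JLine

/-!
# S37, block LF, node Glue, G1: the chart is an `A₀`-algebra of finite type
-/

set_option autoImplicit false
set_option linter.unusedSectionVars false

noncomputable section

namespace Fermat.Agent.S37.Glue

open AlgebraicCurve ModularCurve Fermat.Agent.S24 Fermat.Agent.S37 IsLocalRing

variable {A : ValuationSubring Kbar} {M : ℕ} [NeZero M] {K₀ : IntermediateField ℚ Kbar}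
  {y₀ : S18.FK K₀ M} {ϖ₀ : K₀}

/-- G1 -/
theorem finiteType_Ch [FiniteDimensional ℚ K₀] (h₀ : S18.IsUnif (A0 A K₀) ϖ₀)
    (hy : Transcendental K₀ y₀) :
    @Algebra.FiniteType (A0 A K₀) (Ch A y₀) _ _ (constCh A y₀).toAlgebra := by
  classical
  letI : Algebra (A0 A K₀) (Ch A y₀) := (constCh A y₀).toAlgebra
  obtain ⟨S, hS, hgen⟩ := chart_finite (A0 A K₀) ϖ₀ h₀ y₀ hy
  have hy₀ : y₀ ∈ Ch A y₀ := Po_le_Ch y₀ (self_mem_Po y₀)
  -- the generators
  let T : Finset (Ch A y₀) := insert ⟨y₀, hy₀⟩ (S.attach.image fun e => ⟨e.1, hS e.1 e.2⟩)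
  refine ⟨⟨T, ?_⟩⟩
  rw [eq_top_iff]
  rintro ⟨b, hb⟩ -
  have hyT : (⟨y₀, hy₀⟩ : Ch A y₀) ∈ Algebra.adjoin (A0 A K₀) (T : Set (Ch A y₀)) :=
    Algebra.subset_adjoin (by simp [T])
  have heT : ∀ e (he : e ∈ S), (⟨e, hS e he⟩ : Ch A y₀) ∈
      Algebra.adjoin (A0 A K₀) (T : Set (Ch A y₀)) := by
    intro e he
    apply Algebra.subset_adjoin
    simp only [T, Finset.coe_insert, Finset.coe_image, Set.mem_insert_iff, Set.mem_image]
    exact Or.inr ⟨⟨e, he⟩, by simp, rfl⟩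
  -- polynomials in `y₀` with coefficients in `A₀`
  have hpoly : ∀ p : Polynomial K₀, (∀ i, p.coeff i ∈ A0 A K₀) →
      ∃ z ∈ Algebra.adjoin (A0 A K₀) (T : Set (Ch A y₀)),
        (z : S18.FK K₀ M) = Polynomial.aeval y₀ p := by
    intro p hp
    refine ⟨∑ i ∈ Finset.range (p.natDegree + 1),
      algebraMap (A0 A K₀) (Ch A y₀) ⟨p.coeff i, hp i⟩ * (⟨y₀, hy₀⟩ : Ch A y₀) ^ i, ?_, ?_⟩
    · refine Subalgebra.sum_mem _ fun i _ => ?_
      exact Subalgebra.mul_mem _ (Subalgebra.algebraMap_mem _ _) (Subalgebra.pow_mem _ hyT i)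
    · rw [Polynomial.aeval_eq_sum_range]
      push_cast
      refine Finset.sum_congr rfl fun i _ => ?_
      rw [Algebra.smul_def]
      rfl
  obtain ⟨c, hc, hbc⟩ := hgen b hb
  choose z hz hze using fun e => hpoly (c e) (hc e)
  have hb' : (⟨b, hb⟩ : Ch A y₀) = ∑ e ∈ S.attach, z e.1 * ⟨e.1, hS e.1 e.2⟩ := by
    apply Subtype.ext
    push_cast
    rw [hbc, ← Finset.sum_attach]
    refine Finset.sum_congr rfl fun e _ => ?_
    rw [hze]
  rw [hb']
  exact Subalgebra.sum_mem _ fun e _ => Subalgebra.mul_mem _ (hz e.1) (heT e.1 e.2)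

end Fermat.Agent.S37.Glue

end
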