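import Fermat.Agent.S37.LF.Glue.Defs
import Fermat.Agent.S37.LF.ChartFin
import Fermat.Agent.S18.Descent.JLine

/-!
# S37, block LF, node Glue, G6: `FN M` is the fraction field of `DD A y₀` (helper123)
-/

set_option autoImplicit false
set_option linter.unusedSectionVars false

noncomputable section

namespace Fermat.Agent.S37.Glue

open AlgebraicCurve ModularCurve Fermat.Agent.S24 Fermat.Agent.S37 IsLocalRing

variable {A : ValuationSubring Kbar} {M : ℕ} [NeZero M] {K₀ : IntermediateField ℚ Kbar}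
  {y₀ : S18.FK K₀ M}

/-- constants are fractions -/
theorem Frac.const_mem (c : Kbar) : algebraMap Kbar (FN M) c ∈ fracSubfield (DD A y₀) := by
  rcases A.mem_or_inv_mem c with h | h
  · exact le_fracSubfield _ (const_mem_DD h)
  · have h1 : algebraMap Kbar (FN M) c⁻¹ ∈ fracSubfield (DD A y₀) :=
      le_fracSubfield _ (const_mem_DD h)
    have h2 := (fracSubfield (DD A y₀)).inv_mem h1
    rwa [map_inv₀, inv_inv] at h2

/-- the image of `F_{M,K₀}` consists of fractions -/
theorem Frac.toB_mem (hy : Transcendental K₀ y₀) (f : S18.FK K₀ M) :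
    toB M K₀ f ∈ fracSubfield (DD A y₀) := by
  obtain ⟨a, ha, b, hb, hb0, h⟩ := chart_frac (A0 A K₀) y₀ hy f
  refine ⟨toB M K₀ a, toB_mem_DD ha, toB M K₀ b, toB_mem_DD hb, ?_, ?_⟩
  · rw [Ne, map_eq_zero]
    exact hb0
  · rw [← map_mul, h]

theorem Frac.mem_aux (hy : Transcendental K₀ y₀) (x : LaurentSeries Kbar)
    (hx : x ∈ laurentBaseChange Kbar (modularFunctionFieldFull M)) :
    x ∈ (fracSubfield (DD A y₀)).map (modularFunctionFieldBar M).val.toRingHom := by
  rw [mem_laurentBaseChange_iff] at hx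
  revert x
  show Subfield.closure _ ≤ _
  rw [Subfield.closure_le]
  rintro x (⟨c, rfl⟩ | ⟨z, hz, rfl⟩)
  · exact ⟨algebraMap Kbar (FN M) c, Frac.const_mem c, rfl⟩
  · refine ⟨toB M K₀ ⟨coeffEmb K₀ z, coeffEmb_mem_laurentBaseChange K₀ hz⟩,
      Frac.toB_mem hy _, ?_⟩
    exact S18.Descent.coeffMap_coeffEmb' _ z

/-- G6 -/
theorem exists_frac_DD [FiniteDimensional ℚ K₀] (hy : Transcendental K₀ y₀) (x : FN M) :
    ∃ a ∈ DD A y₀, ∃ b ∈ DD A y₀, b ≠ 0 ∧ x * b = a := by
  obtain ⟨x', hx', h⟩ := Frac.mem_aux (A := A) hy x.1 x.2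
  have : x' = x := Subtype.ext h
  exact this ▸ hx'

end Fermat.Agent.S37.Glue

end
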