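import Fermat.Agent.S37.LF.Glue.Defs

/-!
# S37, block LF, node Glue, G2 + G4: centres of places on the chart are maximal ideals
(task S37-Glue-G2G4, proofs helper275)
-/

set_option autoImplicit false
set_option linter.unusedSectionVars false

noncomputable section

namespace Fermat.Agent.S37.Glue

open AlgebraicCurve ModularCurve Fermat.Agent.S24 Fermat.Agent.S37 IsLocalRing

variable {A : ValuationSubring Kbar} {M : ℕ} [NeZero M] {K₀ : IntermediateField ℚ Kbar}
  {y₀ : S18.FK K₀ M} {P P' P'' : Pl M} {ϖ₀ : K₀}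

/-- an element of `A₀` which is a unit of `A` is a unit of `A₀`. -/
theorem exists_mul_eq_one_of_incl_notMem {a : A0 A K₀} (h : incl A K₀ a ∉ maximalIdeal A) :
    ∃ a' : A0 A K₀, a' * a = 1 := by
  have hu : IsUnit (incl A K₀ a) := by
    by_contra hn
    exact h ((mem_maximalIdeal _).2 hn)
  obtain ⟨u, hu⟩ := hu
  have h1 : (((u⁻¹ : Aˣ) : A) : Kbar) * algebraMap K₀ Kbar a = 1 := by
    have h2 : ((u⁻¹ : Aˣ) : A) * incl A K₀ a = 1 := by rw [← hu]; exact Units.inv_mul u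
    exact congrArg Subtype.val h2
  have ha0 : (a : K₀) ≠ 0 := by
    intro h0
    rw [h0, map_zero, mul_zero] at h1
    exact zero_ne_one h1
  have h3 : algebraMap K₀ Kbar ((a : K₀)⁻¹) = (((u⁻¹ : Aˣ) : A) : Kbar) := by
    rw [map_inv₀]
    exact (eq_inv_of_mul_eq_one_left h1).symm
  have hmem : (a : K₀)⁻¹ ∈ A0 A K₀ := by
    show algebraMap K₀ Kbar ((a : K₀)⁻¹) ∈ A
    rw [h3]
    exact ((u⁻¹ : Aˣ) : A).2
  exact ⟨⟨(a : K₀)⁻¹, hmem⟩, Subtype.ext (inv_mul_cancel₀ ha0)⟩

/-- G2: `P` rational: its centre is a maximal ideal -/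
theorem nId_isMaximal (hP : Reg A M (toB M K₀ y₀) P)
    (hval : ∀ b : Ch A y₀, ∃ a : A0 A K₀, evC hP b = incl A K₀ a) : (nId hP).IsMaximal := by
  rw [Ideal.isMaximal_iff]
  refine ⟨?_, ?_⟩
  · intro h
    rw [mem_nId, map_one] at h
    exact (Ideal.ne_top_iff_one _).1 (maximalIdeal.isMaximal A).ne_top h
  · intro J b hle hb hbJ
    obtain ⟨a, ha⟩ := hval b
    have hna : incl A K₀ a ∉ maximalIdeal A := by
      rw [← ha]
      exact hb
    obtain ⟨a', ha'⟩ := exists_mul_eq_one_of_incl_notMem hna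
    have h1 : b - constCh A y₀ a ∈ nId hP := by
      rw [mem_nId, map_sub, evC_constCh, ha, sub_self]
      exact zero_mem _
    have h2 : constCh A y₀ a ∈ J := by
      have h3 := J.sub_mem hbJ (hle h1)
      rwa [sub_sub_cancel] at h3
    have h4 : (1 : Ch A y₀) = constCh A y₀ a' * constCh A y₀ a := by
      rw [← map_mul, ha', map_one]
    rw [h4]
    exact J.mul_mem_left _ h2

theorem mem_nId_iff_resA (hP : Reg A M (toB M K₀ y₀) P) (b : Ch A y₀) :
    b ∈ nId hP ↔ resA A (val P (toB M K₀ b)) = 0 := by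
  have hmem : val P (toB M K₀ b) ∈ A := (evC hP b).2
  rw [mem_nId', resA_eq_zero_iff hmem]

/-- the reduction of the value at `P` of a polynomial in `y₀`. -/
theorem resA_val_aeval (hP : Reg A M (toB M K₀ y₀) P) (p : Polynomial (A0 A K₀)) :
    resA A (val P (toB M K₀ (Polynomial.aeval y₀ (p.map (A0 A K₀).toSubring.subtype)))) =
      ((p.map (incl A K₀)).map (residue A)).eval (resA A (val P (toB M K₀ y₀))) := by
  rw [toB_aeval, (val_aeval hP.1 _).2, resA_of_mem A hP.2]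
  exact C0.resA_eval (p.map (incl A K₀)) ⟨val P (toB M K₀ y₀), hP.2⟩

/-- on `A₀[y₀]` the centre only depends on the reduction of `y(P)`. -/
theorem mem_nId_iff_of_tube (hP : Reg A M (toB M K₀ y₀) P) (hP' : Reg A M (toB M K₀ y₀) P')
    (htube : resA A (val P' (toB M K₀ y₀)) = resA A (val P (toB M K₀ y₀)))
    (b : Ch A y₀) (hb : (b : S18.FK K₀ M) ∈ Po A y₀) : b ∈ nId hP ↔ b ∈ nId hP' := by
  obtain ⟨p, hp⟩ := exists_of_mem_Po hb
  rw [mem_nId_iff_resA, mem_nId_iff_resA, hp, resA_val_aeval hP, resA_val_aeval hP', htube]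

/-- the chart is integral over `A₀[y₀]`. -/
theorem isIntegral_inclusion_Po (y₀ : S18.FK K₀ M) :
    (Subring.inclusion (Po_le_Ch (A := A) y₀)).IsIntegral := by
  intro b
  obtain ⟨p, hp, hpe⟩ := b.2
  refine ⟨p, hp, ?_⟩
  apply Subtype.ext
  have h := Polynomial.hom_eval₂ p (Subring.inclusion (Po_le_Ch (A := A) y₀))
    (Ch A y₀).subtype b
  have h2 : ((Polynomial.eval₂ (Subring.inclusion (Po_le_Ch (A := A) y₀)) b p : Ch A y₀) :
      S18.FK K₀ M) = (Ch A y₀).subtype
        (Polynomial.eval₂ (Subring.inclusion (Po_le_Ch (A := A) y₀)) b p) := rfl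
  rw [h2, h]
  exact hpe

/-- G4: the centre of a place in the tube of a rational place is a maximal ideal in the fibre -/
theorem nId_tube (hP : Reg A M (toB M K₀ y₀) P)
    (hval : ∀ b : Ch A y₀, ∃ a : A0 A K₀, evC hP b = incl A K₀ a)
    (hP' : Reg A M (toB M K₀ y₀) P')
    (htube : resA A (val P' (toB M K₀ y₀)) = resA A (val P (toB M K₀ y₀))) :
    (nId hP').IsMaximal ∧
      ∀ b : Ch A y₀, (b : S18.FK K₀ M) ∈ Po A y₀ → b ∈ nId hP → b ∈ nId hP' := by
  refine ⟨?_, fun b hb h => (mem_nId_iff_of_tube hP hP' htube b hb).1 h⟩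
  let _ : Algebra (Po A y₀) (Ch A y₀) := (Subring.inclusion (Po_le_Ch y₀)).toAlgebra
  have : Algebra.IsIntegral (Po A y₀) (Ch A y₀) := ⟨isIntegral_inclusion_Po y₀⟩
  have := nId_isMaximal hP hval
  have h1 : ((nId hP).comap (algebraMap (Po A y₀) (Ch A y₀))).IsMaximal :=
    Ideal.isMaximal_comap_of_isIntegral_of_isMaximal (nId hP)
  have h2 : (nId hP').comap (algebraMap (Po A y₀) (Ch A y₀)) =
      (nId hP).comap (algebraMap (Po A y₀) (Ch A y₀)) := by
    ext r
    rw [Ideal.mem_comap, Ideal.mem_comap]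
    exact (mem_nId_iff_of_tube hP hP' htube _ r.2).symm
  exact Ideal.isMaximal_of_isIntegral_of_isMaximal_comap (nId hP') (h2 ▸ h1)

end Fermat.Agent.S37.Glue

end
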