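import Fermat.Agent.S37.LF.Glue.Defs

/-!
# S37, block LF, node Glue G5: a regular parameter has nonzero reduction
(owner helper37, proof helper183)
-/

set_option autoImplicit false
set_option linter.unusedSectionVars false

noncomputable section

namespace Fermat.Agent.S37.Glue

open AlgebraicCurve ModularCurve Fermat.Agent.S24 Fermat.Agent.S37 IsLocalRing

variable {A : ValuationSubring Kbar} {M : ℕ} [NeZero M] {K₀ : IntermediateField ℚ Kbar}
  {y₀ : S18.FK K₀ M} {P P' P'' : Pl M} {ϖ₀ : K₀}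

/-- G5: a regular parameter has nonzero reduction -/
theorem rho_ne_zero_of_param (hQ : QAY A M (toB M K₀ y₀))
    (hYt : ∀ Y : LaurentSeries A, HasIntExp A M (toB M K₀ y₀) Y → Transcendental (kA A) (rho A Y))
    (h₀ : S18.IsUnif (A0 A K₀) ϖ₀) (hP : Reg A M (toB M K₀ y₀) P)
    (hval : ∀ b : Ch A y₀, ∃ a : A0 A K₀, evC hP b = incl A K₀ a) (t : Ch A y₀)
    (hreg : ∀ b ∈ nId hP, ∃ s, s ∉ nId hP ∧ s * b ∈ Ideal.span {constCh A y₀ ⟨ϖ₀, h₀.mem⟩, t})
    (Y : LaurentSeries A) (hY : HasIntExp A M (toB M K₀ t) Y) : rho A Y ≠ 0 := by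
  intro hY0
  set yC : Ch A y₀ := ⟨y₀, Po_le_Ch y₀ (self_mem_Po y₀)⟩ with hyC
  obtain ⟨c₀, hc₀⟩ := hval yC
  have hb₀ : yC - constCh A y₀ c₀ ∈ nId hP := by
    rw [mem_nId, map_sub, evC_constCh, hc₀, sub_self]
    exact zero_mem _
  obtain ⟨s, hs, hsb⟩ := hreg _ hb₀
  obtain ⟨u, v, huv⟩ := Ideal.mem_span_pair.1 hsb
  have hexp : ∀ c : Ch A y₀, ∃ Z : LaurentSeries A, HasIntExp A M (toB M K₀ c) Z :=
    fun c => hQ.1 _ (toB_mem_BY c.2)
  obtain ⟨Ys, hYs⟩ := hexp s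
  obtain ⟨Yu, hYu⟩ := hexp u
  obtain ⟨Yv, hYv⟩ := hexp v
  obtain ⟨Yy, hYy⟩ := hexp yC
  have hϖ : algebraMap K₀ Kbar ϖ₀ ∈ A.nonunits := by
    by_contra h
    apply h₀.inv_notMem
    show algebraMap K₀ Kbar ϖ₀⁻¹ ∈ A
    rw [map_inv₀]
    exact C0.inv_mem_of_not_mem_nonunits h
  have e : toB M K₀ u * algebraMap Kbar (FN M) (algebraMap K₀ Kbar ϖ₀) +
      toB M K₀ v * toB M K₀ t =
      toB M K₀ s * (toB M K₀ y₀ - algebraMap Kbar (FN M) (algebraMap K₀ Kbar c₀)) := by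
    have h1 := congrArg (fun c : Ch A y₀ => toB M K₀ (c : S18.FK K₀ M)) huv
    simp only [Subring.coe_add, Subring.coe_mul, AddSubgroupClass.coe_sub, coe_constCh, map_add, map_mul,
      map_sub, toB_algebraMap] at h1
    exact h1
  have h1 := (hYu.mul (HasIntExp.const_mem M (A.nonunits_subset hϖ))).add (hYv.mul hY)
  have h2 := hYs.mul (HasIntExp.sub hYy (HasIntExp.const_mem M c₀.2))
  rw [e] at h1
  have h3 := congrArg (rho A) (h1.unique h2)
  rw [rho_add, rho_mul, rho_mul, rho_mul, rho_sub, rho_single, rho_single, hY0,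
    C0.residue_eq_zero_of_nonunits hϖ, HahnSeries.single_eq_zero, mul_zero, mul_zero,
    zero_add] at h3
  rcases mul_eq_zero.1 h3.symm with h4 | h4
  · exact hs ((mem_nId' hP s).2 (evB hQ (toB_mem_BY s.2) hYs h4 hP))
  · apply hYt Yy hYy
    rw [sub_eq_zero.1 h4, ← C0.algebraMap_eq_single]
    exact isAlgebraic_algebraMap _

end Fermat.Agent.S37.Glue

end
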