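import Fermat.Agent.S37.LF.Glue.SigmaOf
import Fermat.Agent.S37.LF.Glue.FinType

/-!
# S37, block LF, node Glue, G8: instantiation of `lfAbs_simple`.   Owner: helper57.
-/

set_option autoImplicit false
set_option linter.unusedSectionVars false

noncomputable section

namespace Fermat.Agent.S37.Glue

open AlgebraicCurve ModularCurve Fermat.Agent.S24 Fermat.Agent.S37 IsLocalRing

variable {A : ValuationSubring Kbar} {M : ℕ} [NeZero M] {K₀ : IntermediateField ℚ Kbar}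
  {y₀ : S18.FK K₀ M} {P P' P'' : Pl M} {ϖ₀ : K₀}

/-- G8 (from `lfAbs_simple`) -/
theorem exists_sigma [FiniteDimensional ℚ K₀] (h₀ : S18.IsUnif (A0 A K₀) ϖ₀)
    (hy : Transcendental K₀ y₀) (hP' : Reg A M (toB M K₀ y₀) P')
    (t : Ch A y₀) (ht : t ∈ nId hP')
    (hres : ∀ b : Ch A y₀, ∃ a : A0 A K₀, b - constCh A y₀ a ∈ nId hP')
    (hreg : ∀ b ∈ nId hP', ∃ s, s ∉ nId hP' ∧ s * b ∈ Ideal.span {constCh A y₀ ⟨ϖ₀, h₀.mem⟩, t}) :
    ∃ σ ∈ DD A y₀, val P' σ ≠ 0 ∧ ∀ z ∈ DD A y₀, val P' z = 0 → ∃ z' ∈ DD A y₀,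
      σ * z = (toB M K₀ t - algebraMap Kbar (FN M) (val P' (toB M K₀ t))) * z' :=
  exists_sigma_of (finiteType_Ch h₀ hy) h₀ hP' t ht hres hreg

end Fermat.Agent.S37.Glue

end
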