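import Fermat.Agent.S37.LF.Glue.Defs
import Fermat.Agent.S37.LF.Abs

/-!
# S37, block LF, node Glue, G7 (core): two places of the residue disc of a regular rational point
with the same `t`-coordinate induce the same evaluation on the chart (instance of `lfAbs_uniq`),
with the finiteness of the chart as a hypothesis.
-/

set_option autoImplicit false
set_option linter.unusedSectionVars false

noncomputable section

namespace Fermat.Agent.S37.Glue

open AlgebraicCurve ModularCurve Fermat.Agent.S24 Fermat.Agent.S37 IsLocalRing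

variable {A : ValuationSubring Kbar} {M : ℕ} [NeZero M] {K₀ : IntermediateField ℚ Kbar}
  {y₀ : S18.FK K₀ M} {P P' P'' : Pl M} {ϖ₀ : K₀}

/-- the uniformiser of `A₀` lies in the maximal ideal of `A` -/
theorem incl_unif_mem_maximalIdeal (h₀ : S18.IsUnif (A0 A K₀) ϖ₀) :
    incl A K₀ ⟨ϖ₀, h₀.mem⟩ ∈ maximalIdeal A := by
  rw [mem_maximalIdeal, mem_nonunits_iff]
  rintro ⟨u, hu⟩
  apply h₀.inv_notMem
  have h1 : ((u : A) : Kbar) * (((u⁻¹ : Aˣ) : A) : Kbar) = 1 :=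
    congrArg (Subtype.val) (Units.mul_inv u)
  have h2 : ((u : A) : Kbar) = algebraMap K₀ Kbar ϖ₀ := by rw [hu]; rfl
  have h3 : algebraMap K₀ Kbar ϖ₀⁻¹ = (((u⁻¹ : Aˣ) : A) : Kbar) := by
    rw [map_inv₀, ← h2]
    exact inv_eq_of_mul_eq_one_right h1
  show algebraMap K₀ Kbar ϖ₀⁻¹ ∈ A
  rw [h3]
  exact ((u⁻¹ : Aˣ) : A).2

/-- G7 with the finiteness of the chart as a hypothesis (from `lfAbs_uniq`) -/
theorem evC_eq_of_param_of_finiteType (h₀ : S18.IsUnif (A0 A K₀) ϖ₀)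
    (hfin : @Algebra.FiniteType (A0 A K₀) (Ch A y₀) _ _ (constCh A y₀).toAlgebra)
    (hP' : Reg A M (toB M K₀ y₀) P') (hP'' : Reg A M (toB M K₀ y₀) P'') (hn : nId hP'' = nId hP')
    (t : Ch A y₀) (ht : t ∈ nId hP')
    (hres : ∀ b : Ch A y₀, ∃ a : A0 A K₀, b - constCh A y₀ a ∈ nId hP')
    (hreg : ∀ b ∈ nId hP', ∃ s, s ∉ nId hP' ∧ s * b ∈ Ideal.span {constCh A y₀ ⟨ϖ₀, h₀.mem⟩, t})
    (hte : evC hP' t = evC hP'' t) : evC hP' = evC hP'' := by
  let _ : Algebra (A0 A K₀) (Ch A y₀) := (constCh A y₀).toAlgebra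
  let _ : Algebra (A0 A K₀) A := (incl A K₀).toAlgebra
  have : Algebra.FiniteType (A0 A K₀) (Ch A y₀) := hfin
  let e : Ch A y₀ →ₐ[A0 A K₀] A := { evC hP' with commutes' := evC_constCh hP' }
  let e' : Ch A y₀ →ₐ[A0 A K₀] A := { evC hP'' with commutes' := evC_constCh hP'' }
  have h : e = e' := lfAbs_uniq (⟨ϖ₀, h₀.mem⟩ : A0 A K₀) t (nId hP') ht
    (incl_unif_mem_maximalIdeal h₀) hres hreg e e' (fun b => mem_nId hP' b)
    (fun b => by rw [← hn]; exact mem_nId hP'' b) hte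
  exact congrArg (fun f : Ch A y₀ →ₐ[A0 A K₀] A => (f : Ch A y₀ →+* A)) h

end Fermat.Agent.S37.Glue

end
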