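import Fermat.Agent.S37.LF.Glue.FinType
import Fermat.Agent.S37.LF.Glue.UniqCore

/-!
# S37, block LF, node Glue, G7: two places of the residue disc of a regular rational point with
the same `t`-coordinate induce the same evaluation on the chart (instance of `lfAbs_uniq`).
-/

set_option autoImplicit false
set_option linter.unusedSectionVars false

noncomputable section

namespace Fermat.Agent.S37.Glue

open AlgebraicCurve ModularCurve Fermat.Agent.S24 Fermat.Agent.S37 IsLocalRing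

variable {A : ValuationSubring Kbar} {M : ℕ} [NeZero M] {K₀ : IntermediateField ℚ Kbar}
  {y₀ : S18.FK K₀ M} {P P' P'' : Pl M} {ϖ₀ : K₀}

/-- G7 (from `lfAbs_uniq`) -/
theorem evC_eq_of_param [FiniteDimensional ℚ K₀] (h₀ : S18.IsUnif (A0 A K₀) ϖ₀)
    (hy : Transcendental K₀ y₀)
    (hP' : Reg A M (toB M K₀ y₀) P') (hP'' : Reg A M (toB M K₀ y₀) P'') (hn : nId hP'' = nId hP')
    (t : Ch A y₀) (ht : t ∈ nId hP')
    (hres : ∀ b : Ch A y₀, ∃ a : A0 A K₀, b - constCh A y₀ a ∈ nId hP')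
    (hreg : ∀ b ∈ nId hP', ∃ s, s ∉ nId hP' ∧ s * b ∈ Ideal.span {constCh A y₀ ⟨ϖ₀, h₀.mem⟩, t})
    (hte : evC hP' t = evC hP'' t) : evC hP' = evC hP'' :=
  evC_eq_of_param_of_finiteType h₀ (finiteType_Ch h₀ hy) hP' hP'' hn t ht hres hreg hte

end Fermat.Agent.S37.Glue

end
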