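import Fermat.Agent.S37.LF.Glue.Defs

/-!
# S37, block LF, node Glue, G9: evaluation on `DD` is determined by the chart (helper274)
-/

set_option autoImplicit false
set_option linter.unusedSectionVars false

noncomputable section

namespace Fermat.Agent.S37.Glue

open AlgebraicCurve ModularCurve Fermat.Agent.S24 Fermat.Agent.S37 IsLocalRing

variable {A : ValuationSubring Kbar} {M : ℕ} [NeZero M] {K₀ : IntermediateField ℚ Kbar}
  {y₀ : S18.FK K₀ M} {P P' P'' : Pl M} {ϖ₀ : K₀}

/-- G9: two places with the same evaluation on the chart have the same values on `DD` -/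
theorem val_eq_on_DD (hP' : Reg A M (toB M K₀ y₀) P') (hP'' : Reg A M (toB M K₀ y₀) P'')
    (h : evC hP' = evC hP'') : ∀ z ∈ DD A y₀, val P' z = val P'' z := by
  intro z hz
  unfold DD at hz
  induction hz using Subring.closure_induction with
  | mem x hx =>
    rcases hx with ⟨a, ha, rfl⟩ | ⟨b, hb, rfl⟩
    · rw [val_algebraMap, val_algebraMap]
    · have h1 := congrArg (fun f : Ch A y₀ →+* A => ((f ⟨b, hb⟩ : A) : Kbar)) h
      exact h1
  | zero => rw [val_zero, val_zero]
  | one => rw [val_one, val_one]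
  | add x y hx hy ihx ihy =>
    rw [val_add (mem_of_reg hP' (DD_le_BY hx)).1 (mem_of_reg hP' (DD_le_BY hy)).1,
      val_add (mem_of_reg hP'' (DD_le_BY hx)).1 (mem_of_reg hP'' (DD_le_BY hy)).1, ihx, ihy]
  | neg x hx ih => rw [val_neg, val_neg, ih]
  | mul x y hx hy ihx ihy =>
    rw [val_mul (mem_of_reg hP' (DD_le_BY hx)).1 (mem_of_reg hP' (DD_le_BY hy)).1,
      val_mul (mem_of_reg hP'' (DD_le_BY hx)).1 (mem_of_reg hP'' (DD_le_BY hy)).1, ihx, ihy]

end Fermat.Agent.S37.Glue

end
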