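import Fermat.Agent.S37.LF.Glue.Defs
import Fermat.Agent.S37.LF.Glue.FinType
import Fermat.Agent.S37.LF.Glue.Max
import Fermat.Agent.S37.LF.Glue.Fibre
import Fermat.Agent.S37.LF.Glue.Rho
import Fermat.Agent.S37.LF.Glue.Frac
import Fermat.Agent.S37.LF.Glue.Uniq
import Fermat.Agent.S37.LF.Glue.Sigma
import Fermat.Agent.S37.LF.Glue.ValDD
import Fermat.Agent.S37.LF.Abs
import Fermat.Agent.S37.LF.Param
import Fermat.Agent.S37.LF.ChartFin
import Fermat.Agent.S18.Descent.JLine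

/-!
# S37, block LF, node Glue: assembly
-/

set_option autoImplicit false
set_option linter.unusedSectionVars false
set_option linter.style.haveILetI false

noncomputable section

namespace Fermat.Agent.S37.Glue

open AlgebraicCurve ModularCurve Fermat.Agent.S24 Fermat.Agent.S37 IsLocalRing

variable {A : ValuationSubring Kbar} {M : ℕ} [NeZero M] {K₀ : IntermediateField ℚ Kbar}
  {y₀ : S18.FK K₀ M} {P P' P'' : Pl M} {ϖ₀ : K₀}

theorem ord_nonneg_of_mem_DD (hP' : Reg A M (toB M K₀ y₀) P') {z : FN M} (hz : z ∈ DD A y₀) :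
    0 ≤ P'.ord z := (mem_of_reg hP' (DD_le_BY hz)).1

theorem ord_pos_iff_of_mem_DD (hP' : Reg A M (toB M K₀ y₀) P') {z : FN M} (hz : z ∈ DD A y₀)
    (hz0 : z ≠ 0) : 0 < P'.ord z ↔ val P' z = 0 := by
  rw [val_eq_zero_iff (ord_nonneg_of_mem_DD hP' hz)]
  exact ⟨Or.inr, fun h => h.resolve_left hz0⟩

/-- common part: data for `lfAbs_ord`, `lfAbs_ord_unique` -/
theorem exists_sigma' [FiniteDimensional ℚ K₀] (h₀ : S18.IsUnif (A0 A K₀) ϖ₀)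
    (hy : Transcendental K₀ y₀) (hP' : Reg A M (toB M K₀ y₀) P')
    (t : Ch A y₀) (ht : t ∈ nId hP')
    (hres : ∀ b : Ch A y₀, ∃ a : A0 A K₀, b - constCh A y₀ a ∈ nId hP')
    (hreg : ∀ b ∈ nId hP', ∃ s, s ∉ nId hP' ∧ s * b ∈ Ideal.span {constCh A y₀ ⟨ϖ₀, h₀.mem⟩, t})
    (a : Kbar) (hpos : 0 < P'.ord (toB M K₀ t - algebraMap Kbar (FN M) a)) :
    ∃ σ ∈ DD A y₀, σ ≠ 0 ∧ val P' σ ≠ 0 ∧ P'.ord σ = 0 ∧ ∀ z ∈ DD A y₀, z ≠ 0 → 0 < P'.ord z →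
      ∃ z' ∈ DD A y₀, σ * z = (toB M K₀ t - algebraMap Kbar (FN M) a) * z' := by
  obtain ⟨σ, hσ, hσv, h⟩ := exists_sigma h₀ hy hP' t ht hres hreg
  have hva : val P' (toB M K₀ t) = a := val_eq_of (Or.inr hpos)
  have hσ0 : σ ≠ 0 := by
    rintro rfl
    exact hσv val_zero
  refine ⟨σ, hσ, hσ0, hσv, ?_, fun z hz hz0 hzpos => ?_⟩
  · have h1 := ord_nonneg_of_mem_DD hP' hσ
    by_contra hne
    exact hσv (val_of_pos (lt_of_le_of_ne h1 (Ne.symm hne)))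
  · rw [← hva]
    exact h z hz (val_of_pos hzpos)

theorem ord_eq_one_of_param [FiniteDimensional ℚ K₀] (h₀ : S18.IsUnif (A0 A K₀) ϖ₀)
    (hy : Transcendental K₀ y₀) (hP' : Reg A M (toB M K₀ y₀) P')
    (t : Ch A y₀) (ht : t ∈ nId hP')
    (hres : ∀ b : Ch A y₀, ∃ a : A0 A K₀, b - constCh A y₀ a ∈ nId hP')
    (hreg : ∀ b ∈ nId hP', ∃ s, s ∉ nId hP' ∧ s * b ∈ Ideal.span {constCh A y₀ ⟨ϖ₀, h₀.mem⟩, t})
    (a : Kbar) (ha : a ∈ A) (hpos : 0 < P'.ord (toB M K₀ t - algebraMap Kbar (FN M) a)) :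
    P'.ord (toB M K₀ t - algebraMap Kbar (FN M) a) = 1 := by
  obtain ⟨σ, hσ, hσ0, -, hσo, h⟩ := exists_sigma' h₀ hy hP' t ht hres hreg a hpos
  obtain ⟨u, hu⟩ := FF.exists_ord_eq_one P'
  exact lfAbs_ord P'.ord (fun x y hx hy => P'.ord_mul hx hy)
    ⟨u, FF.ne_zero_of_ord_ne_zero P' (by rw [hu]; exact one_ne_zero), hu⟩ (DD A y₀)
    (exists_frac_DD hy) (fun z hz _ => ord_nonneg_of_mem_DD hP' hz) _ σ
    ((DD A y₀).sub_mem (toB_mem_DD t.2) (const_mem_DD ha))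
    (FF.ne_zero_of_ord_ne_zero P' hpos.ne') hσ0 hσo hpos h

theorem place_eq_of_param [FiniteDimensional ℚ K₀] (h₀ : S18.IsUnif (A0 A K₀) ϖ₀)
    (hy : Transcendental K₀ y₀) (hP' : Reg A M (toB M K₀ y₀) P')
    (hP'' : Reg A M (toB M K₀ y₀) P'') (hn : nId hP'' = nId hP')
    (t : Ch A y₀) (ht : t ∈ nId hP')
    (hres : ∀ b : Ch A y₀, ∃ a : A0 A K₀, b - constCh A y₀ a ∈ nId hP')
    (hreg : ∀ b ∈ nId hP', ∃ s, s ∉ nId hP' ∧ s * b ∈ Ideal.span {constCh A y₀ ⟨ϖ₀, h₀.mem⟩, t})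
    (a : Kbar) (ha : a ∈ A) (hpos : 0 < P'.ord (toB M K₀ t - algebraMap Kbar (FN M) a))
    (hpos' : 0 < P''.ord (toB M K₀ t - algebraMap Kbar (FN M) a)) : P'' = P' := by
  obtain ⟨σ, hσ, hσ0, hσv, hσo, h⟩ := exists_sigma' h₀ hy hP' t ht hres hreg a hpos
  have hva : val P' (toB M K₀ t) = a := val_eq_of (Or.inr hpos)
  have hva' : val P'' (toB M K₀ t) = a := val_eq_of (Or.inr hpos')
  have hev : evC hP' = evC hP'' := evC_eq_of_param h₀ hy hP' hP'' hn t ht hres hreg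
    (Subtype.ext (by rw [coe_evC, coe_evC, hva, hva']))
  have hval := val_eq_on_DD hP' hP'' hev
  have h1 := ord_eq_one_of_param h₀ hy hP' t ht hres hreg a ha hpos
  have h2 := ord_eq_one_of_param h₀ hy hP'' t (hn ▸ ht) (hn ▸ hres) (hn ▸ hreg) a ha hpos'
  have hσo' : P''.ord σ = 0 := by
    have h3 := ord_nonneg_of_mem_DD hP'' hσ
    by_contra hne
    exact hσv ((hval σ hσ).trans (val_of_pos (lt_of_le_of_ne h3 (Ne.symm hne))))
  have key := lfAbs_ord_unique P'.ord P''.ord (fun x y hx hy => P'.ord_mul hx hy)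
    (fun x y hx hy => P''.ord_mul hx hy) (DD A y₀) (exists_frac_DD hy)
    (fun z hz _ => ord_nonneg_of_mem_DD hP' hz) (fun z hz _ => ord_nonneg_of_mem_DD hP'' hz)
    (fun z hz hz0 => by
      rw [ord_pos_iff_of_mem_DD hP' hz hz0, ord_pos_iff_of_mem_DD hP'' hz hz0, hval z hz])
    _ σ (FF.ne_zero_of_ord_ne_zero P' hpos.ne') hσ0 hσo hσo' h1 h2 h
  refine FF.place_ext_of_ord_nonneg fun f => ?_
  rcases eq_or_ne f 0 with rfl | hf
  · simp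
  · rw [key f hf]

theorem unif_mem_nonunits (h₀ : S18.IsUnif (A0 A K₀) ϖ₀) :
    algebraMap K₀ Kbar ϖ₀ ∈ A.nonunits := by
  have h1 : algebraMap K₀ Kbar ϖ₀ ∈ A := h₀.mem
  have h2 : (algebraMap K₀ Kbar ϖ₀)⁻¹ ∉ A := fun h => h₀.inv_notMem (by
    show algebraMap K₀ Kbar ϖ₀⁻¹ ∈ A
    rwa [map_inv₀])
  by_contra hcon
  exact h2 (C0.inv_mem_of_not_mem_nonunits hcon)

theorem transcendental_of_toB (hy : Transcendental Kbar (toB M K₀ y₀)) : Transcendental K₀ y₀ := by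
  intro halg
  obtain ⟨p, hp0, hp⟩ := halg
  apply hy
  refine ⟨p.map (algebraMap K₀ Kbar), (Polynomial.map_ne_zero_iff (algebraMap K₀ Kbar).injective).2 hp0, ?_⟩
  rw [← S18.Descent.map_aeval_eq (toB M K₀) toB_algebraMap, hp, map_zero]

end Fermat.Agent.S37.Glue

namespace Fermat.Agent.S37

open AlgebraicCurve ModularCurve Fermat.Agent.S24 IsLocalRing Glue

/-- task S37-LF-Glue -/
theorem lfAt_of_chart (A : ValuationSubring Kbar) (M : ℕ) [NeZero M]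
    (y : FN M) (hy : Transcendental Kbar y) (P : Pl M) (hP : Reg A M y P)
    (hQ : QAY A M y)
    (hYt : ∀ Y : LaurentSeries A, HasIntExp A M y Y → Transcendental (kA A) (rho A Y))
    (K₀ : IntermediateField ℚ Kbar) [FiniteDimensional ℚ K₀] (ϖ₀ : K₀)
    (h₀ : S18.IsUnif (A0 A K₀) ϖ₀) (y₀ : S18.FK K₀ M) (hy₀ : toB M K₀ y₀ = y)
    (hrat : ∀ f : S18.FK K₀ M, 0 ≤ P.ord (toB M K₀ f) → val P (toB M K₀ f) ∈ K₀)
    (w₀ : S18.FK K₀ M) (hw₀ : val P (toB M K₀ w₀) ∈ A.nonunits)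
    (hreg : RegChart (A0 A K₀) ϖ₀ y₀ w₀) : LFAt A M y P := by
  classical
  subst hy₀
  have hy0 : Transcendental K₀ y₀ := transcendental_of_toB hy
  have hval : ∀ b : Ch A y₀, ∃ a : A0 A K₀, evC hP b = incl A K₀ a := by
    intro b
    have h1 := mem_of_reg hP (toB_mem_BY b.2)
    have h2 := hrat b h1.1
    exact ⟨⟨⟨_, h2⟩, h1.2⟩, Subtype.ext rfl⟩
  have hmax : (nId hP).IsMaximal := nId_isMaximal hP hval
  have hres : ∀ b : Ch A y₀, ∃ a : A0 A K₀, b - constCh A y₀ a ∈ nId hP := by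
    intro b
    obtain ⟨a, ha⟩ := hval b
    refine ⟨a, ?_⟩
    rw [mem_nId, map_sub, evC_constCh, ha, sub_self]
    exact zero_mem _
  set ϖB : Ch A y₀ := constCh A y₀ ⟨ϖ₀, h₀.mem⟩ with hϖB
  have hϖn : ϖB ∈ nId hP := by
    rw [mem_nId', hϖB, coe_constCh, toB_algebraMap, val_algebraMap]
    exact unif_mem_nonunits h₀
  have hregAt : S18.Abs.RegAt ϖB (nId hP) := hreg ϖB rfl (nId hP) hmax hϖn (fun wB hwB => by
    rw [mem_nId', hwB]
    exact hw₀)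
  have hfin := finite_fibre h₀ hy0 hP hval
  haveI : IsNoetherianRing (Ch A y₀) := chart_noetherian (A0 A K₀) ϖ₀ h₀ y₀ hy0
  obtain ⟨t, ht, hpar, hT⟩ := exists_param ϖB (nId hP) hmax hregAt (hfin.toFinset.erase (nId hP))
    (fun 𝔭 h𝔭 => by
      rw [Finset.mem_erase, Set.Finite.mem_toFinset] at h𝔭
      exact ⟨h𝔭.2.1, h𝔭.1⟩)
  obtain ⟨Y, hY⟩ := hQ.1 (toB M K₀ t) (toB_mem_BY t.2)
  have hcentre : ∀ a ∈ A.nonunits, ∀ P' : Pl M,
      ∀ hP' : Tube A M (toB M K₀ y₀) (resA A (val P (toB M K₀ y₀))) P',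
      0 < P'.ord (toB M K₀ t - algebraMap Kbar (FN M) a) → nId hP'.1 = nId hP := by
    intro a ha P' hP' hpos
    obtain ⟨h1, h2⟩ := nId_tube hP hval hP'.1 hP'.2
    by_contra hne
    refine hT (nId hP'.1) ?_ ?_
    · rw [Finset.mem_erase, Set.Finite.mem_toFinset]
      exact ⟨hne, h1, h2⟩
    · rw [mem_nId', val_eq_of (Or.inr hpos)]
      exact ha
  refine ⟨toB M K₀ t, Y, toB_mem_BY t.2, hY, rho_ne_zero_of_param hQ hYt h₀ hP hval t hpar Y hY,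
    (mem_nId' hP t).1 ht, ?_⟩
  intro a ha P' hP' hpos
  have hn := hcentre a ha P' hP' hpos
  refine ⟨ord_eq_one_of_param h₀ hy0 hP'.1 t (hn ▸ ht) (hn ▸ hres) (hn ▸ hpar) a
    (A.nonunits_subset ha) hpos, ?_⟩
  intro P'' hP'' hpos'
  have hn' := hcentre a ha P'' hP'' hpos'
  exact place_eq_of_param h₀ hy0 hP'.1 hP''.1 (hn'.trans hn.symm) t (hn ▸ ht) (hn ▸ hres)
    (hn ▸ hpar) a (A.nonunits_subset ha) hpos hpos'

end Fermat.Agent.S37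

end
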