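import Fermat.Agent.S37.LF.Glue.Defs
import Fermat.Agent.S37.LF.Abs

/-!
# S37, block LF, node Glue, G8: instantiation of `lfAbs_simple`
(relative to the finiteness of the chart).   Owner: helper57.
-/

set_option autoImplicit false
set_option linter.unusedSectionVars false

noncomputable section

namespace Fermat.Agent.S37.Glue

open AlgebraicCurve ModularCurve Fermat.Agent.S24 Fermat.Agent.S37 IsLocalRing

variable {A : ValuationSubring Kbar} {M : ℕ} [NeZero M] {K₀ : IntermediateField ℚ Kbar}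
  {y₀ : S18.FK K₀ M} {P P' P'' : Pl M} {ϖ₀ : K₀}

variable (A) in
/-- constants of `DD` -/
def Sigma.constDD (y₀ : S18.FK K₀ M) : A →+* DD A y₀ :=
  ((algebraMap Kbar (FN M)).comp A.subtype).codRestrict _ (fun a => const_mem_DD a.2)

variable (A) in
/-- the chart in `DD` -/
def Sigma.iDD (y₀ : S18.FK K₀ M) : Ch A y₀ →+* DD A y₀ :=
  ((toB M K₀).comp (Subring.subtype _)).codRestrict _ (fun b => toB_mem_DD b.2)

theorem Sigma.incl_unif_mem (h₀ : S18.IsUnif (A0 A K₀) ϖ₀) :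
    incl A K₀ ⟨ϖ₀, h₀.mem⟩ ∈ maximalIdeal A := by
  rw [mem_maximalIdeal, mem_nonunits_iff]
  rintro ⟨u, hu⟩
  apply h₀.inv_notMem
  show algebraMap K₀ Kbar ϖ₀⁻¹ ∈ A
  have h1 : ((u : A) : Kbar) = algebraMap K₀ Kbar ϖ₀ := by rw [hu]; rfl
  have h2 : ((u : A) : Kbar) * (((u⁻¹ : Aˣ) : A) : Kbar) = 1 := by
    have := congrArg (fun z : A => (z : Kbar)) u.mul_inv
    exact this
  rw [map_inv₀, ← h1, ← eq_inv_of_mul_eq_one_right h2]
  exact ((u⁻¹ : Aˣ) : A).2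

/-- G8 (from `lfAbs_simple`), relative to G1 -/
theorem exists_sigma_of
    (hft : @Algebra.FiniteType (A0 A K₀) (Ch A y₀) _ _ (constCh A y₀).toAlgebra)
    (h₀ : S18.IsUnif (A0 A K₀) ϖ₀) (hP' : Reg A M (toB M K₀ y₀) P')
    (t : Ch A y₀) (ht : t ∈ nId hP')
    (hres : ∀ b : Ch A y₀, ∃ a : A0 A K₀, b - constCh A y₀ a ∈ nId hP')
    (hreg : ∀ b ∈ nId hP', ∃ s, s ∉ nId hP' ∧ s * b ∈ Ideal.span {constCh A y₀ ⟨ϖ₀, h₀.mem⟩, t}) :
    ∃ σ ∈ DD A y₀, val P' σ ≠ 0 ∧ ∀ z ∈ DD A y₀, val P' z = 0 → ∃ z' ∈ DD A y₀,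
      σ * z = (toB M K₀ t - algebraMap Kbar (FN M) (val P' (toB M K₀ t))) * z' := by
  letI i1 : Algebra (A0 A K₀) (Ch A y₀) := (constCh A y₀).toAlgebra
  letI i2 : Algebra (A0 A K₀) A := (incl A K₀).toAlgebra
  letI i3 : Algebra A (DD A y₀) := (Sigma.constDD A y₀).toAlgebra
  haveI : Algebra.FiniteType (A0 A K₀) (Ch A y₀) := hft
  let ev0 : DD A y₀ →+* A := (evBY hP').comp (Subring.inclusion DD_le_BY)
  have hev0 : ∀ z : DD A y₀, ((ev0 z : A) : Kbar) = val P' (z : FN M) := fun z => rfl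
  let ev : DD A y₀ →ₐ[A] A :=
    { ev0 with
      commutes' := fun a => by
        apply Subtype.ext
        show val P' (algebraMap Kbar (FN M) (a : Kbar)) = a
        rw [val_algebraMap] }
  have hev : ∀ z : DD A y₀, ((ev z : A) : Kbar) = val P' (z : FN M) := fun z => rfl
  have hgen : Algebra.adjoin A (Set.range (Sigma.iDD A y₀)) = ⊤ := by
    rw [eq_top_iff]
    rintro ⟨z, hz⟩ -
    have hle : DD A y₀ ≤ (Algebra.adjoin A (Set.range (Sigma.iDD A y₀))).toSubring.map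
        (DD A y₀).subtype := by
      conv_lhs => unfold DD
      rw [Subring.closure_le]
      rintro x (⟨a, ha, rfl⟩ | ⟨b, hb, rfl⟩)
      · exact ⟨algebraMap A (DD A y₀) ⟨a, ha⟩, Subalgebra.algebraMap_mem _ (⟨a, ha⟩ : A), rfl⟩
      · exact ⟨Sigma.iDD A y₀ ⟨b, hb⟩, Algebra.subset_adjoin ⟨⟨b, hb⟩, rfl⟩, rfl⟩
    obtain ⟨w, hw, hwz⟩ := hle hz
    have : (⟨z, hz⟩ : DD A y₀) = w := Subtype.ext hwz.symm
    rw [this]
    exact hw
  obtain ⟨σ, hσ, hdiv⟩ := lfAbs_simple (A₀ := A0 A K₀) (C := Ch A y₀) (A := A) (D := DD A y₀)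
    (Sigma.iDD A y₀)
    (fun a => Subtype.ext (toB_algebraMap (a : K₀)))
    hgen ev ⟨ϖ₀, h₀.mem⟩ t (nId hP') ht (Sigma.incl_unif_mem h₀) hres hreg
    (fun y => mem_nId hP' y)
  refine ⟨σ, σ.2, ?_, ?_⟩
  · intro h0
    have : ev σ = 0 := Subtype.ext (by rw [hev, h0]; rfl)
    rw [this] at hσ
    exact not_isUnit_zero hσ
  · intro z hz hz0
    obtain ⟨z', hz'⟩ := hdiv ⟨z, hz⟩ (Subtype.ext (by rw [hev]; exact hz0))
    refine ⟨z', z'.2, ?_⟩
    have := congrArg (fun w : DD A y₀ => (w : FN M)) hz'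
    exact this

end Fermat.Agent.S37.Glue

end
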